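import Mathlib
import Fermat.Agent.S24.FundId

/-!
# FF-CHARP (1): the fundamental identity for a separating element

`∑_{v : y(v) = 0} ord_v y = [F : K(y)]` when `F / K(y)` is finite and separable, over an
algebraically closed constant field of arbitrary characteristic.  (Same proof as
`Fermat.Agent.S24.zerosOf_finite_sum`, with separability as a hypothesis instead of `CharZero`.)
-/

set_option autoImplicit false
set_option linter.style.haveILetI false

noncomputable section

namespace Fermat.Agent.Lib.FF.CharP

open AlgebraicCurve IntermediateField Fermat.Agent.S24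
open scoped IntermediateField.algebraAdjoinAdjoin

variable {K F : Type*} [Field K] [Field F] [Algebra K F]

/-- **Fundamental identity**, separable case: the zeros of a transcendental `y` with `F / K(y)`
finite separable are finite in number and their orders add up to `[F : K(y)]`. -/
theorem zerosOf_finite_sum_of_isSeparable [IsAlgClosed K] (y : F) (hy : Transcendental K y)
    [FiniteDimensional K⟮y⟯ F] [Algebra.IsSeparable K⟮y⟯ F] :
    ∃ hfin : (zerosOf K y).Finite,
      ∑ v ∈ hfin.toFinset, v.ord y = (Module.finrank K⟮y⟯ F : ℤ) := by
  let e := Polynomial.algEquivOfTranscendental K y hy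
  haveI : IsPrincipalIdealRing (Algebra.adjoin K {y}) :=
    IsPrincipalIdealRing.of_surjective e.toRingEquiv e.surjective
  haveI : IsDedekindDomain (integralClosure (Algebra.adjoin K {y}) F) :=
    integralClosure.isDedekindDomain (Algebra.adjoin K {y}) K⟮y⟯ F
  haveI : IsFractionRing (integralClosure (Algebra.adjoin K {y}) F) F :=
    integralClosure.isFractionRing_of_finite_extension K⟮y⟯ F
  haveI : Module.Finite (Algebra.adjoin K {y}) (integralClosure (Algebra.adjoin K {y}) F) :=
    IsIntegralClosure.finite (Algebra.adjoin K {y}) K⟮y⟯ F _
  let a : Algebra.adjoin K {y} := ⟨y, Algebra.self_mem_adjoin_singleton K y⟩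
  have ha : e Polynomial.X = a := by
    apply Subtype.ext
    simp [e, a]
  have ha0 : a ≠ 0 := by
    intro h
    have : y = 0 := congrArg Subtype.val h
    exact hy (this ▸ isAlgebraic_zero)
  have hirr : Irreducible a := by
    rw [← ha]
    exact (MulEquiv.irreducible_iff e.toMulEquiv).2 Polynomial.irreducible_X
  haveI hmax : (Ideal.span {a}).IsMaximal := PrincipalIdealRing.isMaximal_of_irreducible hirr
  have hgen : Algebra.adjoin K ({a} : Set (Algebra.adjoin K {y})) = ⊤ := by
    have h := Algebra.adjoin_adjoin_coe_preimage (R := K) (s := ({y} : Set F))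
    convert h using 2
    ext x
    simp [a, Subtype.ext_iff]
  exact exists_finite_sum_ord_eq_finrank (K := K) (F := F)
    (integralClosure (Algebra.adjoin K {y}) F) K⟮y⟯ a ha0 hgen

end Fermat.Agent.Lib.FF.CharP
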