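import Mathlib

/-!
# FF-CHARP (3): the degree of `K(z) / K(zᵖ)` in characteristic `p`

For `z` transcendental over a field `K` of characteristic `p`: `z ∉ K(zᵖ)`, the polynomial
`Tᵖ - zᵖ` is irreducible over `K(zᵖ)`, and `[F : K(zᵖ)] = p · [F : K(z)]` for every extension
field `F ∋ z`.
-/

set_option autoImplicit false
set_option linter.style.haveILetI false

noncomputable section

namespace Fermat.Agent.Lib.FF.CharP

open IntermediateField Polynomial

variable {K F : Type*} [Field K] [Field F] [Algebra K F]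
variable (p : ℕ) [Fact p.Prime] [CharP K p]

/-- A transcendental element is not a rational function of its `p`-th power. -/
theorem notMem_adjoin_pow {z : F} (hz : Transcendental K z) : z ∉ K⟮z ^ p⟯ := by
  have hp : p.Prime := Fact.out
  intro hmem
  obtain ⟨r, s, hrs⟩ := (mem_adjoin_simple_iff K z).1 hmem
  have hz0 : z ≠ 0 := fun h => hz (h ▸ isAlgebraic_zero)
  have hs0 : aeval (z ^ p) s ≠ 0 := by
    intro h
    rw [h, div_zero] at hrs
    exact hz0 hrs
  have h1 : z * aeval (z ^ p) s = aeval (z ^ p) r := by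
    rw [eq_div_iff hs0] at hrs
    exact hrs
  have h2 : aeval z (X * expand K p s - expand K p r) = 0 := by
    rw [map_sub, map_mul, aeval_X, expand_aeval, expand_aeval, h1, sub_self]
  have h3 : X * expand K p s - expand K p r = 0 := transcendental_iff.1 hz _ h2
  have hpK : ((p : ℕ) : K[X]) = 0 := by
    rw [← C_eq_natCast, CharP.cast_eq_zero, C_0]
  have h4 := congrArg derivative h3
  simp only [derivative_sub, derivative_mul, derivative_X, one_mul, derivative_expand, hpK,
    zero_mul, mul_zero, add_zero, sub_zero, derivative_zero] at h4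
  have hs : s = 0 := (expand_eq_zero hp.pos).1 h4
  exact hs0 (by rw [hs, map_zero])

/-- `Tᵖ - zᵖ` is the minimal polynomial of a transcendental `z` over `K(zᵖ)`. -/
theorem finrank_adjoin_pow_adjoin {z : F} (hz : Transcendental K z) :
    Module.finrank K⟮z ^ p⟯ K⟮z ^ p⟯⟮z⟯ = p := by
  have hp : p.Prime := Fact.out
  haveI : CharP F p := charP_of_injective_algebraMap (algebraMap K F).injective p
  set c : K⟮z ^ p⟯ := ⟨z ^ p, mem_adjoin_simple_self K (z ^ p)⟩ with hc
  have hroot : aeval z (X ^ p - C c) = 0 := by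
    rw [map_sub, map_pow, aeval_X, aeval_C]
    exact sub_self _
  have hint : IsIntegral K⟮z ^ p⟯ z := ⟨X ^ p - C c, monic_X_pow_sub_C _ hp.ne_zero, hroot⟩
  have hirr : Irreducible (X ^ p - C c) := by
    refine X_pow_sub_C_irreducible_of_prime hp ?_
    intro b hb
    have hb' : (b : F) ^ p = z ^ p := congrArg Subtype.val hb
    have h0 : ((b : F) - z) ^ p = 0 := by rw [sub_pow_char, hb', sub_self]
    have hbz : (b : F) = z := sub_eq_zero.1 (eq_zero_of_pow_eq_zero h0)
    have hbmem : (b : F) ∈ K⟮z ^ p⟯ := b.2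
    rw [hbz] at hbmem
    exact notMem_adjoin_pow p hz hbmem
  have hmin : minpoly K⟮z ^ p⟯ z = X ^ p - C c :=
    (minpoly.eq_of_irreducible_of_monic hirr hroot (monic_X_pow_sub_C _ hp.ne_zero)).symm
  rw [adjoin.finrank hint, hmin, natDegree_X_pow_sub_C]

omit [Fact p.Prime] [CharP K p] in
/-- `K(zᵖ)(z)` and `K(z)` are the same subfield of `F`. -/
theorem mem_adjoin_pow_adjoin_iff (z : F) (a : F) : a ∈ K⟮z ^ p⟯⟮z⟯ ↔ a ∈ K⟮z⟯ := by
  have h : restrictScalars K (K⟮z ^ p⟯⟮z⟯) = K⟮z⟯ := by
    rw [adjoin_adjoin_left]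
    apply le_antisymm
    · rw [adjoin_le_iff]
      rintro b (hb | hb)
      · rw [Set.mem_singleton_iff] at hb
        rw [hb]
        exact pow_mem (mem_adjoin_simple_self K z) p
      · rw [Set.mem_singleton_iff] at hb
        rw [hb]
        exact mem_adjoin_simple_self K z
    · rw [adjoin_simple_le_iff]
      exact subset_adjoin K _ (Or.inr rfl)
  rw [← h, mem_restrictScalars]

/-- `[F : K(zᵖ)] = p · [F : K(z)]` for `z` transcendental over `K` of characteristic `p`. -/
theorem finrank_adjoin_pow {z : F} (hz : Transcendental K z) :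
    Module.finrank K⟮z ^ p⟯ F = p * Module.finrank K⟮z⟯ F := by
  have h1 := Module.finrank_mul_finrank K⟮z ^ p⟯ K⟮z ^ p⟯⟮z⟯ F
  rw [finrank_adjoin_pow_adjoin p hz] at h1
  have h2 : Module.finrank K⟮z ^ p⟯⟮z⟯ F = Module.finrank K⟮z⟯ F := by
    let i : K⟮z ^ p⟯⟮z⟯ ≃+* K⟮z⟯ :=
      { toFun := fun a => ⟨a.1, (mem_adjoin_pow_adjoin_iff p z a.1).1 a.2⟩
        invFun := fun a => ⟨a.1, (mem_adjoin_pow_adjoin_iff p z a.1).2 a.2⟩
        left_inv := fun a => rfl
        right_inv := fun a => rfl
        map_mul' := fun a b => rfl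
        map_add' := fun a b => rfl }
    exact Algebra.finrank_eq_of_equiv_equiv i (RingEquiv.refl F) (by ext a; rfl)
  rw [← h1, h2]

end Fermat.Agent.Lib.FF.CharP
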