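import Mathlib

/-!
# FF-CHARP (2): separable or a `p`-th power

Let `K` be a perfect field of characteristic `p` and `F / K` a field extension having a
*separating* element `x` (i.e. `F / K(x)` is algebraic and separable).  Then for every `y : F`
with `F / K(y)` finite, either `y` is a `p`-th power in `F`, or `F / K(y)` is separable.

Proof: `F = Fᵖ(x)` by separability, so `[F : Fᵖ] ≤ p`; if `y ∉ Fᵖ` then `Fᵖ(y)` has degree `p`
over `Fᵖ`, hence `F = Fᵖ(y)`, hence `F = F^(pⁿ)(y)` for all `n`, hence `F` equals the separable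
closure of `K(y)` in `F` (over which `F` is purely inseparable of finite exponent).
-/

set_option autoImplicit false
set_option linter.style.haveILetI false

noncomputable section

namespace Fermat.Agent.Lib.FF.CharP

open IntermediateField Polynomial

variable {K F : Type*} [Field K] [Field F] [Algebra K F]

section Frob

variable (p : ℕ) [Fact p.Prime] [CharP F p]

/-- The set of `p`-th powers, as the range of a function. -/
theorem pow_mem_closure_of_mem {S : Subfield F} {a : F} (ha : a ∈ S) (n : ℕ) : a ^ n ∈ S :=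
  pow_mem ha n

/-- If `F = Fᵖ(y)` then `F = F^(pⁿ)(y)` for every `n`. -/
theorem closure_range_pow_pow_eq_top {y : F}
    (h : Subfield.closure (Set.range (fun b : F => b ^ p) ∪ {y}) = ⊤) (n : ℕ) :
    Subfield.closure (Set.range (fun b : F => b ^ p ^ n) ∪ {y}) = ⊤ := by
  induction n with
  | zero =>
    rw [eq_top_iff]
    intro a _
    exact Subfield.subset_closure (Or.inl ⟨a, by simp⟩)
  | succ n ih =>
    rw [eq_top_iff, ← h, Subfield.closure_le]
    rintro a (⟨b, rfl⟩ | ha)
    · -- `b ^ p` is the image under Frobenius of an element of `closure (range (· ^ p ^ n) ∪ {y})`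
      have hb : b ∈ Subfield.closure (Set.range (fun b : F => b ^ p ^ n) ∪ {y}) := by
        rw [ih]; exact Subfield.mem_top b
      have hb' : frobenius F p b ∈
          (Subfield.closure (Set.range (fun b : F => b ^ p ^ n) ∪ {y})).map (frobenius F p) :=
        Subfield.mem_map.2 ⟨b, hb, rfl⟩
      rw [RingHom.map_field_closure] at hb'
      have hle : Subfield.closure ((frobenius F p) '' (Set.range (fun b : F => b ^ p ^ n) ∪ {y}))
          ≤ Subfield.closure (Set.range (fun b : F => b ^ p ^ (n + 1)) ∪ {y}) := by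
        rw [Subfield.closure_le]
        rintro _ ⟨c, (⟨d, rfl⟩ | hc), rfl⟩
        · refine Subfield.subset_closure (Or.inl ⟨d, ?_⟩)
          simp only [frobenius_def]
          rw [← pow_mul, pow_succ]
        · rw [Set.mem_singleton_iff] at hc
          subst hc
          rw [frobenius_def]
          have hc' : c ∈ Subfield.closure (Set.range (fun b : F => b ^ p ^ (n + 1)) ∪ {c}) :=
            Subfield.subset_closure (Or.inr rfl)
          exact pow_mem hc' p
      exact hle hb'
    · rw [Set.mem_singleton_iff] at ha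
      subst ha
      exact Subfield.subset_closure (Or.inr rfl)

/-- If `F = Fᵖ(x)` (so that `[F : Fᵖ] ≤ p`) and `y` is not a `p`-th power, then `F = Fᵖ(y)`. -/
theorem closure_range_pow_eq_top_of_not_pow {x y : F}
    (hx : Subfield.closure (Set.range (fun b : F => b ^ p) ∪ {x}) = ⊤)
    (hy : ∀ z : F, z ^ p ≠ y) :
    Subfield.closure (Set.range (fun b : F => b ^ p) ∪ {y}) = ⊤ := by
  have hp : p.Prime := Fact.out
  -- the subfield of `p`-th powers
  set R : Subfield F := (frobenius F p).fieldRange with hR
  have hRmem : ∀ a : F, a ∈ R ↔ ∃ b : F, b ^ p = a := by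
    intro a
    rw [hR, RingHom.mem_fieldRange]
    simp only [frobenius_def]
  have hRset : (R : Set F) = Set.range (fun b : F => b ^ p) := by
    ext a
    rw [SetLike.mem_coe, hRmem]
    rfl
  have hrange : Set.range (algebraMap R F) = Set.range (fun b : F => b ^ p) := by
    rw [← hRset]
    ext a
    constructor
    · rintro ⟨r, rfl⟩
      exact r.2
    · intro ha
      exact ⟨⟨a, ha⟩, rfl⟩
  -- `R⟮x⟯ = ⊤`
  have hxtop : R⟮x⟯ = ⊤ := by
    rw [eq_top_iff]
    intro a _
    have : a ∈ (R⟮x⟯).toSubfield := by
      rw [adjoin_toSubfield, hrange, hx]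
      exact Subfield.mem_top a
    exact this
  -- `x` and `y` are integral over `R`
  have hpow_mem : ∀ a : F, a ^ p ∈ R := fun a => (hRmem _).2 ⟨a, rfl⟩
  have hroot : ∀ a : F, aeval a (X ^ p - C (⟨a ^ p, hpow_mem a⟩ : R)) = 0 := by
    intro a
    rw [map_sub, map_pow, aeval_X, aeval_C]
    exact sub_self _
  have hint : ∀ a : F, IsIntegral R a := fun a =>
    ⟨X ^ p - C (⟨a ^ p, hpow_mem a⟩ : R), monic_X_pow_sub_C _ hp.ne_zero, hroot a⟩
  -- `[F : R] ≤ p`
  haveI hfdx : FiniteDimensional R R⟮x⟯ := adjoin.finiteDimensional (hint x)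
  haveI hfd : FiniteDimensional R F := by
    have e : (⊤ : IntermediateField R F) ≃ₐ[R] F := IntermediateField.topEquiv
    rw [hxtop] at hfdx
    exact Module.Finite.equiv e.toLinearEquiv
  have hle : Module.finrank R F ≤ p := by
    have h1 : Module.finrank R R⟮x⟯ = (minpoly R x).natDegree := adjoin.finrank (hint x)
    have h2 : (minpoly R x).natDegree ≤ p := by
      have hdvd := minpoly.dvd R x (hroot x)
      have := natDegree_le_of_dvd hdvd (monic_X_pow_sub_C _ hp.ne_zero).ne_zero
      rwa [natDegree_X_pow_sub_C] at this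
    have h3 : Module.finrank R R⟮x⟯ = Module.finrank R F := by
      rw [hxtop]
      exact IntermediateField.finrank_top'
    omega
  -- `[R(y) : R] = p`
  have hirr : Irreducible (X ^ p - C (⟨y ^ p, hpow_mem y⟩ : R)) := by
    refine X_pow_sub_C_irreducible_of_prime hp ?_
    intro b hb
    have hb' : (b : F) ^ p = y ^ p := congrArg Subtype.val hb
    have h0 : ((b : F) - y) ^ p = 0 := by rw [sub_pow_char, hb', sub_self]
    have hby : (b : F) = y := sub_eq_zero.1 (eq_zero_of_pow_eq_zero h0)
    obtain ⟨z, hz⟩ := (hRmem (b : F)).1 b.2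
    exact hy z (hz.trans hby)
  have hmin : minpoly R y = X ^ p - C (⟨y ^ p, hpow_mem y⟩ : R) :=
    (minpoly.eq_of_irreducible_of_monic hirr (hroot y) (monic_X_pow_sub_C _ hp.ne_zero)).symm
  have hdeg : Module.finrank R R⟮y⟯ = p := by
    rw [adjoin.finrank (hint y), hmin, natDegree_X_pow_sub_C]
  have hytop : R⟮y⟯ = ⊤ := by
    have hle' : Module.finrank R R⟮y⟯ ≤ Module.finrank R F :=
      Submodule.finrank_le (R⟮y⟯).toSubalgebra.toSubmodule
    have heq : Module.finrank R (R⟮y⟯).toSubalgebra.toSubmodule = Module.finrank R F := by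
      have : Module.finrank R (R⟮y⟯).toSubalgebra.toSubmodule = Module.finrank R R⟮y⟯ := rfl
      omega
    have htop := Submodule.eq_top_of_finrank_eq heq
    rw [eq_top_iff]
    intro a _
    have : a ∈ (R⟮y⟯).toSubalgebra.toSubmodule := by rw [htop]; exact Submodule.mem_top
    exact this
  rw [eq_top_iff]
  intro a _
  have : a ∈ (R⟮y⟯).toSubfield := by
    rw [hytop]
    exact Subfield.mem_top a
  rw [adjoin_toSubfield, hrange] at this
  exact this

end Frob

section Main

variable (p : ℕ) [Fact p.Prime] [CharP K p]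

/-- If `K` is perfect of characteristic `p` and `F / K(x)` is separable, then `F = Fᵖ(x)`. -/
theorem closure_range_pow_eq_top_of_isSeparable [PerfectField K] (x : F)
    [Algebra.IsSeparable K⟮x⟯ F] :
    Subfield.closure (Set.range (fun b : F => b ^ p) ∪ {x}) = ⊤ := by
  haveI : CharP F p := charP_of_injective_algebraMap (algebraMap K F).injective p
  haveI : CharP K⟮x⟯ p := charP_of_injective_algebraMap (algebraMap K K⟮x⟯).injective p
  set T : Subfield F := Subfield.closure (Set.range (fun b : F => b ^ p) ∪ {x}) with hT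
  rw [eq_top_iff]
  intro a _
  have h1 : K⟮x⟯⟮a⟯ = K⟮x⟯⟮a ^ p⟯ :=
    adjoin_simple_eq_adjoin_pow_expChar_of_isSeparable' K⟮x⟯ F a p
  have ha : a ∈ (K⟮x⟯⟮a ^ p⟯).toSubfield := by
    have : a ∈ K⟮x⟯⟮a ^ p⟯ := h1 ▸ mem_adjoin_simple_self K⟮x⟯ a
    exact this
  have hKx : (K⟮x⟯).toSubfield ≤ T := by
    rw [adjoin_toSubfield, Subfield.closure_le]
    rintro c (⟨d, rfl⟩ | hc)
    · -- constants are `p`-th powers
      obtain ⟨e, he⟩ := (frobeniusEquiv K p).surjective d
      refine Subfield.subset_closure (Or.inl ⟨algebraMap K F e, ?_⟩)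
      simp only
      rw [← map_pow, ← he, frobeniusEquiv_apply, frobenius_def]
    · rw [Set.mem_singleton_iff] at hc
      subst hc
      exact Subfield.subset_closure (Or.inr rfl)
  have hle : (K⟮x⟯⟮a ^ p⟯).toSubfield ≤ T := by
    rw [adjoin_toSubfield, Subfield.closure_le]
    rintro c (⟨d, rfl⟩ | hc)
    · exact hKx d.2
    · rw [Set.mem_singleton_iff] at hc
      subst hc
      exact Subfield.subset_closure (Or.inl ⟨a, rfl⟩)
  exact hle ha

/-- A finite purely inseparable extension `F / E` with `F = F^(pⁿ)(y)` for all `n` and `y ∈ E`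
is trivial. -/
theorem eq_top_of_isPurelyInseparable_of_closure_eq_top {L : Type*} [Field L] [Algebra L F]
    [CharP F p] (E : IntermediateField L F) [IsPurelyInseparable E F] [FiniteDimensional E F]
    (y : F) (hyE : y ∈ E)
    (h : ∀ n : ℕ, Subfield.closure (Set.range (fun b : F => b ^ p ^ n) ∪ {y}) = ⊤) :
    E = ⊤ := by
  haveI : CharP E p := RingHom.charP (algebraMap E F) (algebraMap E F).injective p
  have hexp : ∀ a : F, a ^ p ^ IsPurelyInseparable.exponent E F ∈ (algebraMap E F).range :=
    fun a => IsPurelyInseparable.exponent_def' E p a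
  have hn := h (IsPurelyInseparable.exponent E F)
  have hle : Subfield.closure
      (Set.range (fun b : F => b ^ p ^ IsPurelyInseparable.exponent E F) ∪ {y})
        ≤ E.toSubfield := by
    rw [Subfield.closure_le]
    rintro c (⟨d, rfl⟩ | hc)
    · obtain ⟨e, he⟩ := hexp d
      have he2 : (algebraMap E F e) ∈ E.toSubfield := e.2
      rw [he] at he2
      exact he2
    · rw [Set.mem_singleton_iff] at hc
      rw [hc]
      exact hyE
  rw [eq_top_iff]
  intro a _
  have : a ∈ E.toSubfield := hle (by rw [hn]; exact Subfield.mem_top a)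
  exact this

/-- **Separable or a `p`-th power.**  Let `K` be perfect of characteristic `p`, and `x : F` a
separating element (`F / K(x)` separable).  For every `y : F` with `F / K(y)` finite, either `y`
is a `p`-th power in `F` or `F / K(y)` is separable. -/
theorem exists_pow_eq_or_isSeparable [PerfectField K] (x : F) [Algebra.IsSeparable K⟮x⟯ F]
    (y : F) [FiniteDimensional K⟮y⟯ F] :
    (∃ z : F, z ^ p = y) ∨ Algebra.IsSeparable K⟮y⟯ F := by
  haveI : CharP F p := charP_of_injective_algebraMap (algebraMap K F).injective p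
  by_cases hy : ∃ z : F, z ^ p = y
  · exact Or.inl hy
  right
  rw [not_exists] at hy
  have hxtop := closure_range_pow_eq_top_of_isSeparable (K := K) p x
  have hytop := closure_range_pow_eq_top_of_not_pow p hxtop hy
  -- the separable closure of `K(y)` in `F`
  haveI : Algebra.IsAlgebraic K⟮y⟯ F := Algebra.IsAlgebraic.of_finite _ _
  haveI : IsPurelyInseparable (separableClosure K⟮y⟯ F) F :=
    separableClosure.isPurelyInseparable K⟮y⟯ F
  have hyE : y ∈ separableClosure K⟮y⟯ F :=
    (separableClosure K⟮y⟯ F).algebraMap_mem (⟨y, mem_adjoin_simple_self K y⟩ : K⟮y⟯)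
  have hEtop : separableClosure K⟮y⟯ F = ⊤ :=
    eq_top_of_isPurelyInseparable_of_closure_eq_top p (separableClosure K⟮y⟯ F) y hyE
      (closure_range_pow_pow_eq_top p hytop)
  exact (separableClosure.eq_top_iff K⟮y⟯ F).1 hEtop

end Main

end Fermat.Agent.Lib.FF.CharP
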