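import Mathlib
import Fermat.Agent.S24.FundCor
import Fermat.Agent.Lib.FF.CharP.FundSep
import Fermat.Agent.Lib.FF.CharP.SepOrPow
import Fermat.Agent.Lib.FF.CharP.PthRoot

/-!
# FF-CHARP (4): the fundamental identity in arbitrary characteristic

`K` algebraically closed of ANY characteristic, `F` a field finite over `K(y)`, `y` transcendental.
Then `∑_{v : y(v) = 0} ord_v y = [F : K(y)]` — no separability hypothesis.

Consequences, in exactly the shapes of the characteristic-zero library
(`Fermat.Agent.S24.zerosOf_finite_sum`, `placesOver_finite_sum`, `polesOf_finite_sum`,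
`sum_ord_eq_zero`, `Fermat.Agent.S24.Transfer.*`), with `[CharZero K]` removed.
-/

set_option autoImplicit false
set_option linter.style.haveILetI false

noncomputable section

namespace Fermat.Agent.Lib.FF.CharP

open AlgebraicCurve IntermediateField Fermat.Agent.S24

variable {K F : Type*} [Field K] [Field F] [Algebra K F]

/-- A function field of one variable over a perfect field has a separating element. -/
theorem exists_separating [PerfectField K] (x : F) (hx : Transcendental K x)
    [FiniteDimensional K⟮x⟯ F] :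
    ∃ t : F, Transcendental K t ∧ Algebra.IsSeparable K⟮t⟯ F := by
  classical
  haveI : Algebra.EssFiniteType K K⟮x⟯ :=
    IntermediateField.essFiniteType_iff.2 ⟨{x}, by simp⟩
  haveI : Algebra.EssFiniteType K F := Algebra.EssFiniteType.comp K K⟮x⟯ F
  obtain ⟨s, hs, hsep⟩ := exists_isTranscendenceBasis_and_isSeparable_of_perfectField K F
  -- `{x}` is a transcendence basis
  have hxb : IsTranscendenceBasis K (fun _ : Unit => x) := by
    have hind : AlgebraicIndependent K (fun _ : Unit => x) :=
      algebraicIndependent_unique_type_iff.2 hx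
    rw [hind.isTranscendenceBasis_iff_isAlgebraic]
    have hrange : Set.range (fun _ : Unit => x) = {x} := Set.range_const
    rw [hrange]
    haveI : Algebra.IsAlgebraic K⟮x⟯ F := Algebra.IsAlgebraic.of_finite _ _
    exact isAlgebraic_adjoin_iff_top.1 inferInstance
  have hcard := hs.lift_cardinalMk_eq hxb
  have hs1 : s.card = 1 := by
    have h1 : Cardinal.mk (↥s) = 1 := by
      simpa using hcard
    rw [Cardinal.mk_coe_finset] at h1
    exact_mod_cast h1
  obtain ⟨t, rfl⟩ := Finset.card_eq_one.1 hs1
  refine ⟨t, hs.1.transcendental ⟨t, Finset.mem_singleton_self t⟩, ?_⟩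
  have hcoe : ((({t} : Finset F) : Set F)) = {t} := Finset.coe_singleton t
  rw [hcoe] at hsep
  exact hsep

/-- Induction on the degree `[F : K(y)]`, with a fixed separating element `x`. -/
theorem zerosOf_finite_sum_aux [IsAlgClosed K] (p : ℕ) [Fact p.Prime] [CharP K p] (x : F)
    [FiniteDimensional K⟮x⟯ F] [Algebra.IsSeparable K⟮x⟯ F] (n : ℕ) :
    ∀ y : F, Transcendental K y → ∀ [FiniteDimensional K⟮y⟯ F], Module.finrank K⟮y⟯ F ≤ n →
      ∃ hfin : (zerosOf K y).Finite,
        ∑ v ∈ hfin.toFinset, v.ord y = (Module.finrank K⟮y⟯ F : ℤ) := by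
  have hp : p.Prime := Fact.out
  induction n with
  | zero =>
    intro y _ _ hle
    have hpos : 0 < Module.finrank K⟮y⟯ F := Module.finrank_pos
    omega
  | succ n ih =>
    intro y hy _ hle
    rcases exists_pow_eq_or_isSeparable (K := K) p x y with ⟨z, hzy⟩ | hsep
    · subst hzy
      have hz : Transcendental K z := fun h => hy (h.pow p)
      haveI : FiniteDimensional K⟮z⟯ F := finiteDimensional_of_transcendental x hz
      have hdeg : Module.finrank K⟮z ^ p⟯ F = p * Module.finrank K⟮z⟯ F :=
        finrank_adjoin_pow p hz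
      have hpos : 0 < Module.finrank K⟮z⟯ F := Module.finrank_pos
      have h2 : 2 * Module.finrank K⟮z⟯ F ≤ p * Module.finrank K⟮z⟯ F :=
        Nat.mul_le_mul_right _ hp.two_le
      have hle' : Module.finrank K⟮z⟯ F ≤ n := by omega
      obtain ⟨hfin, hsum⟩ := ih z hz hle'
      have hord : ∀ v : Place K F, v.ord (z ^ p) = (p : ℤ) * v.ord z := by
        intro v
        rw [← zpow_natCast, Place.ord_zpow]
      have hset : zerosOf K (z ^ p) = zerosOf K z := by
        ext v
        simp only [mem_zerosOf, hord]
        have hp0 : (0 : ℤ) < p := by exact_mod_cast hp.pos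
        exact mul_pos_iff_of_pos_left hp0
      have hfin' : (zerosOf K (z ^ p)).Finite := hset ▸ hfin
      refine ⟨hfin', ?_⟩
      have hfs : hfin'.toFinset = hfin.toFinset := by
        ext v
        simp [hset]
      rw [hfs, hdeg, Finset.sum_congr rfl (fun v _ => hord v), ← Finset.mul_sum, hsum]
      push_cast
      ring
    · exact zerosOf_finite_sum_of_isSeparable y hy

/-- **Fundamental identity**, arbitrary characteristic: for `K` algebraically closed and `y`
transcendental with `F` finite over `K(y)`, the zeros of `y` are finite in number and their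
orders add up to `[F : K(y)]`. -/
theorem zerosOf_finite_sum [IsAlgClosed K] (y : F) (hy : Transcendental K y)
    [FiniteDimensional K⟮y⟯ F] :
    ∃ hfin : (zerosOf K y).Finite,
      ∑ v ∈ hfin.toFinset, v.ord y = (Module.finrank K⟮y⟯ F : ℤ) := by
  haveI : PerfectField K := IsAlgClosed.perfectField K
  obtain _ | ⟨p, hp, hpK⟩ := CharP.exists' K
  · exact Fermat.Agent.S24.zerosOf_finite_sum y hy
  · obtain ⟨t, ht, hsep⟩ := exists_separating y hy
    haveI : FiniteDimensional K⟮t⟯ F := finiteDimensional_of_transcendental y ht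
    exact zerosOf_finite_sum_aux p t (Module.finrank K⟮y⟯ F) y hy le_rfl

/-- **Fundamental identity over a value `c`** (set-builder shape of `S24.Transfer`). -/
theorem placesOver_finite_sum [IsAlgClosed K] (x : F) (hx : Transcendental K x)
    [FiniteDimensional K⟮x⟯ F] (c : K) :
    ∃ hfin : {v : Place K F | 0 < v.ord (x - algebraMap K F c)}.Finite,
      ∑ v ∈ hfin.toFinset, v.ord (x - algebraMap K F c) = (Module.finrank K⟮x⟯ F : ℤ) := by
  haveI : FiniteDimensional K⟮x - algebraMap K F c⟯ F :=
    finiteDimensional_adjoin_congr (adjoin_sub_algebraMap_eq x c).symm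
  have h := zerosOf_finite_sum (x - algebraMap K F c) (transcendental_sub_algebraMap hx c)
  rw [finrank_adjoin_congr (adjoin_sub_algebraMap_eq x c)] at h
  exact h

/-- **Fundamental identity over `∞`** (set-builder shape of `S24.Transfer`). -/
theorem polesOf_finite_sum [IsAlgClosed K] (x : F) (hx : Transcendental K x)
    [FiniteDimensional K⟮x⟯ F] :
    ∃ hfin : {v : Place K F | v.ord x < 0}.Finite,
      ∑ v ∈ hfin.toFinset, (-v.ord x) = (Module.finrank K⟮x⟯ F : ℤ) := by
  haveI : FiniteDimensional K⟮x⁻¹⟯ F := finiteDimensional_adjoin_congr (adjoin_inv_eq x).symm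
  obtain ⟨hfin, h⟩ := zerosOf_finite_sum x⁻¹ (transcendental_inv hx)
  rw [finrank_adjoin_congr (adjoin_inv_eq x)] at h
  have hset : zerosOf K x⁻¹ = {v : Place K F | v.ord x < 0} := by
    ext v
    simp only [mem_zerosOf, Set.mem_ofPred_eq, v.ord_inv]
    omega
  have hfin' : {v : Place K F | v.ord x < 0}.Finite := hset ▸ hfin
  refine ⟨hfin', ?_⟩
  rw [← h]
  have : hfin'.toFinset = hfin.toFinset := by
    ext v
    simp [hset]
  rw [this]
  exact Finset.sum_congr rfl fun v _ => (v.ord_inv x).symm

/-- The same in the `placesOver` vocabulary of `S24.PlaceBasic`. -/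
theorem placesOver_finite_sum' [IsAlgClosed K] (x : F) (hx : Transcendental K x)
    [FiniteDimensional K⟮x⟯ F] (c : K) :
    ∃ hfin : (placesOver x c).Finite,
      ∑ v ∈ hfin.toFinset, v.ord (x - algebraMap K F c) = (Module.finrank K⟮x⟯ F : ℤ) :=
  placesOver_finite_sum x hx c

/-- The same in the `polesOf` vocabulary of `S24.PlaceBasic`. -/
theorem polesOf_finite_sum' [IsAlgClosed K] (x : F) (hx : Transcendental K x)
    [FiniteDimensional K⟮x⟯ F] :
    ∃ hfin : (polesOf K x).Finite,
      ∑ v ∈ hfin.toFinset, (-v.ord x) = (Module.finrank K⟮x⟯ F : ℤ) :=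
  polesOf_finite_sum x hx

/-- A function has finitely many zeros and poles. -/
theorem finite_ord_ne_zero [IsAlgClosed K] (x : F) [FiniteDimensional K⟮x⟯ F] (f : F) :
    {v : Place K F | v.ord f ≠ 0}.Finite := by
  by_cases hfa : IsAlgebraic K f
  · have h : {v : Place K F | v.ord f ≠ 0} = ∅ := by
      ext v
      simp only [Set.mem_empty_iff_false, iff_false]
      intro hv
      exact hv (DNeZero.ord_eq_zero_of_isAlgebraic v hfa)
    rw [h]
    exact Set.finite_empty
  have hft : Transcendental K f := hfa
  haveI : FiniteDimensional K⟮f⟯ F := finiteDimensional_of_transcendental x hft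
  obtain ⟨hZ, -⟩ := zerosOf_finite_sum f hft
  obtain ⟨hP, -⟩ := polesOf_finite_sum f hft
  refine (hZ.union hP).subset ?_
  intro v hv
  have hv' : v.ord f ≠ 0 := hv
  rcases lt_or_gt_of_ne hv' with h | h
  · exact Or.inr h
  · exact Or.inl h

/-- **Principal divisors have degree zero** (sum of orders over any finite set of places
containing all zeros and poles). -/
theorem sum_ord_eq_zero [IsAlgClosed K] (x : F) [FiniteDimensional K⟮x⟯ F] (f : F)
    (S : Finset (Place K F)) (hS : ∀ v : Place K F, v.ord f ≠ 0 → v ∈ S) :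
    ∑ v ∈ S, v.ord f = 0 := by
  classical
  by_cases halg : IsAlgebraic K f
  · exact Finset.sum_eq_zero fun v _ => DNeZero.ord_eq_zero_of_isAlgebraic v halg
  have htr : Transcendental K f := halg
  haveI : FiniteDimensional K⟮f⟯ F := finiteDimensional_of_transcendental x htr
  obtain ⟨hz, hzs⟩ := zerosOf_finite_sum f htr
  obtain ⟨hp, hps⟩ := polesOf_finite_sum f htr
  have h1 : ∑ v ∈ S, v.ord f = ∑ v ∈ S.filter (fun v => 0 < v.ord f), v.ord f
      + ∑ v ∈ S.filter (fun v => ¬ 0 < v.ord f), v.ord f :=
    (Finset.sum_filter_add_sum_filter_not S _ _).symm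
  have h2 : S.filter (fun v => 0 < v.ord f) = hz.toFinset := by
    ext v
    simp only [Finset.mem_filter, Set.Finite.mem_toFinset, mem_zerosOf]
    exact ⟨fun h => h.2, fun h => ⟨hS v (ne_of_gt h), h⟩⟩
  have h3 : ∑ v ∈ S.filter (fun v => ¬ 0 < v.ord f), v.ord f
      = ∑ v ∈ hp.toFinset, v.ord f := by
    symm
    apply Finset.sum_subset
    · intro v hv
      rw [Set.Finite.mem_toFinset, Set.mem_ofPred_eq] at hv
      rw [Finset.mem_filter]
      exact ⟨hS v (ne_of_lt hv), by omega⟩
    · intro v hv hv'
      rw [Finset.mem_filter] at hv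
      rw [Set.Finite.mem_toFinset, Set.mem_ofPred_eq] at hv'
      omega
  rw [h1, h2, h3, hzs]
  have : ∑ v ∈ hp.toFinset, v.ord f = -(Module.finrank K⟮f⟯ F : ℤ) := by
    rw [← hps, Finset.sum_neg_distrib, neg_neg]
  rw [this]
  ring

end Fermat.Agent.Lib.FF.CharP
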