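import Mathlib
import Fermat.Agent.Lib.FF.CharP.Fund
import Fermat.Agent.Lib.FF.Setting

/-!
# FF-CHARP (5): principal divisors and the setting `IsFF1` in arbitrary characteristic

`K` algebraically closed of ANY characteristic, `F` finite over `K(x)`:
* `divOf`, `degree_divOf`, `hasPrincipalDivisors` : the Prelude class
  `AlgebraicCurve.HasPrincipalDivisors K F`;
* `isFF1` : helper86's characteristic-free Riemann–Roch setting `IsFF1 K F x`
  (so that every theorem proved for `IsFF1` holds for function fields in characteristic `p`);
* `const_of_ord_nonneg` : a function without poles is constant.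
-/

set_option autoImplicit false
set_option linter.style.haveILetI false

noncomputable section

namespace Fermat.Agent.Lib.FF.CharP

open AlgebraicCurve IntermediateField Fermat.Agent.S24

variable {K F : Type*} [Field K] [Field F] [Algebra K F]

/-- The divisor of a function. -/
def divOf [IsAlgClosed K] (x : F) [FiniteDimensional K⟮x⟯ F] (f : F) : Divisor K F :=
  Finsupp.onFinset (finite_ord_ne_zero x f).toFinset (fun v => v.ord f)
    (fun _ hv => (finite_ord_ne_zero x f).mem_toFinset.mpr hv)

@[simp]
theorem divOf_apply [IsAlgClosed K] (x : F) [FiniteDimensional K⟮x⟯ F] (f : F) (v : Place K F) :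
    divOf x f v = v.ord f := rfl

theorem degree_divOf [IsAlgClosed K] (x : F) [FiniteDimensional K⟮x⟯ F] (f : F) :
    Divisor.degree (divOf (K := K) x f) = 0 := by
  haveI : Algebra.IsAlgebraic K⟮x⟯ F := Algebra.IsAlgebraic.of_finite _ _
  rw [Fermat.Agent.Lib.FF.Ext.degree_eq_sum x]
  exact sum_ord_eq_zero x f (divOf (K := K) x f).support (fun v hv => by
    rw [Finsupp.mem_support_iff, divOf_apply]; exact hv)

/-- **`HasPrincipalDivisors`** for a function field of one variable over an algebraically closed
field of arbitrary characteristic. -/
theorem hasPrincipalDivisors [IsAlgClosed K] (x : F) [FiniteDimensional K⟮x⟯ F] :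
    HasPrincipalDivisors K F :=
  ⟨fun f _ => ⟨divOf x f, fun v => divOf_apply x f v, degree_divOf x f⟩⟩

/-- A function without poles is constant. -/
theorem const_of_ord_nonneg [IsAlgClosed K] (x : F) [FiniteDimensional K⟮x⟯ F] (f : F)
    (hf : ∀ v : Place K F, 0 ≤ v.ord f) : ∃ c : K, f = algebraMap K F c := by
  by_cases hfa : IsAlgebraic K f
  · exact exists_eq_algebraMap_of_isAlgebraic hfa
  · exfalso
    have hft : Transcendental K f := hfa
    haveI : FiniteDimensional K⟮f⟯ F := finiteDimensional_of_transcendental x hft
    obtain ⟨hfin, hsum⟩ := polesOf_finite_sum f hft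
    have hempty : hfin.toFinset = ∅ := by
      ext v
      rw [Set.Finite.mem_toFinset]
      simp only [Finset.notMem_empty, iff_false]
      exact not_lt.mpr (hf v)
    rw [hempty, Finset.sum_empty] at hsum
    have hpos : 0 < Module.finrank K⟮f⟯ F := Module.finrank_pos
    omega

/-- **The setting `IsFF1`** holds for every function field of one variable over an algebraically
closed field, in any characteristic. -/
theorem isFF1 [IsAlgClosed K] (x : F) (hx : Transcendental K x) [FiniteDimensional K⟮x⟯ F] :
    IsFF1 K F x where
  transcendental := hx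
  finiteDimensional := inferInstance
  resK := fun v a => by
    have : Algebra.IsAlgebraic K⟮x⟯ F := Algebra.IsAlgebraic.of_finite _ _
    exact Fermat.Agent.S24.residueTrivial x v a
  hasPrincipalDivisors := hasPrincipalDivisors x
  poles_le := by
    obtain ⟨hfin, hsum⟩ := polesOf_finite_sum x hx
    exact ⟨hfin, hsum.le⟩
  const_of_ord_nonneg := const_of_ord_nonneg x

end Fermat.Agent.Lib.FF.CharP
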