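import Mathlib
import Fermat.Agent.Lib.FF.CharP.Principal
import Fermat.Agent.Lib.FF.ModL

/-!
# FF-CHARP (6): the mod-`ℓ` modular function field is a function field of one variable

* `isAlgClosed_residueField` : the residue field of a valuation subring of an algebraically closed
  field is algebraically closed (e.g. `IsLocalRing.ResidueField A` for
  `A : ValuationSubring (AlgebraicClosure ℚ)`);
* `isFF1_fullC`, `hasPrincipalDivisors_fullC`, `deg_eq_one_fullC`, `sum_ord_eq_zero_fullC` :
  for every algebraically closed field `k` (ANY characteristic, no condition relating it to `N`),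
  the field `modularFunctionFieldFullC k N = k(J(q^d) : d ∣ N)` satisfies helper86's setting
  `IsFF1` with `x = J`, has principal divisors of degree zero, and all its places have degree one.
-/

set_option autoImplicit false
set_option linter.style.haveILetI false

noncomputable section

namespace Fermat.Agent.Lib.FF.CharP

open AlgebraicCurve IntermediateField ModularCurve Polynomial

/-- The residue field of a valuation subring of an algebraically closed field is algebraically
closed. -/
theorem isAlgClosed_residueField {L : Type*} [Field L] [IsAlgClosed L] (A : ValuationSubring L) :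
    IsAlgClosed (IsLocalRing.ResidueField A) := by
  refine IsAlgClosed.of_exists_root _ fun p hp hirr => ?_
  have hlift : p ∈ Polynomial.lifts (IsLocalRing.residue A) :=
    Polynomial.map_surjective _ IsLocalRing.residue_surjective p |>.elim fun q hq =>
      (Polynomial.mem_lifts p).2 ⟨q, hq⟩
  obtain ⟨q, hqp, hqdeg, hqm⟩ := Polynomial.lifts_and_natDegree_eq_and_monic hlift hp
  have hdeg : (q.map A.subtype).degree ≠ 0 := by
    rw [Polynomial.degree_map_eq_of_injective A.subtype_injective]
    have h1 : 0 < p.natDegree := hirr.natDegree_pos
    have h2 : 0 < q.natDegree := by omega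
    exact (Polynomial.natDegree_pos_iff_degree_pos.1 h2).ne'
  obtain ⟨α, hα⟩ := IsAlgClosed.exists_root (q.map A.subtype) hdeg
  have hαint : IsIntegral A α := ⟨q, hqm, by
    rw [← Polynomial.eval_map]; exact hα⟩
  have hαA : α ∈ A := Fermat.Agent.S24.mem_valuationSubring_of_isIntegral A (fun x => x.2) hαint
  refine ⟨IsLocalRing.residue A ⟨α, hαA⟩, ?_⟩
  have h0 : q.eval (⟨α, hαA⟩ : A) = 0 := by
    apply A.subtype_injective
    rw [map_zero, ← Polynomial.eval₂_at_apply, Polynomial.eval₂_eq_eval_map]
    exact hα
  rw [← hqp, Polynomial.eval_map, Polynomial.eval₂_at_apply, h0, map_zero]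

variable (k : Type*) [Field k] [IsAlgClosed k] (N : ℕ) [NeZero N]

/-- **`IsFF1`** for the modular function field of level `N` over an algebraically closed field
`k` of arbitrary characteristic, with `x = J`. -/
theorem isFF1_fullC :
    Fermat.Agent.Lib.FF.IsFF1 k (modularFunctionFieldFullC k N)
      (Fermat.Agent.Lib.FF.ModL.Jbar k N) := by
  haveI := Fermat.Agent.Lib.FF.ModL.finiteDimensional_Jbar k N
  exact isFF1 _ (Fermat.Agent.Lib.FF.ModL.transcendental_Jbar k N)

/-- Principal divisors of the modular function field over `k` exist and have degree zero. -/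
theorem hasPrincipalDivisors_fullC : HasPrincipalDivisors k (modularFunctionFieldFullC k N) :=
  (isFF1_fullC k N).hasPrincipalDivisors

/-- Every place of the modular function field over `k` has degree one. -/
theorem deg_eq_one_fullC (v : Place k (modularFunctionFieldFullC k N)) : v.deg = 1 := by
  haveI := Fermat.Agent.Lib.FF.ModL.finiteDimensional_Jbar k N
  exact Fermat.Agent.S24.deg_eq_one _ (Fermat.Agent.Lib.FF.ModL.transcendental_Jbar k N) v

/-- The orders of a function of the modular function field over `k` add up to zero. -/
theorem sum_ord_eq_zero_fullC (f : modularFunctionFieldFullC k N)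
    (S : Finset (Place k (modularFunctionFieldFullC k N)))
    (hS : ∀ v : Place k (modularFunctionFieldFullC k N), v.ord f ≠ 0 → v ∈ S) :
    ∑ v ∈ S, v.ord f = 0 := by
  haveI := Fermat.Agent.Lib.FF.ModL.finiteDimensional_Jbar k N
  exact sum_ord_eq_zero (Fermat.Agent.Lib.FF.ModL.Jbar k N) f S hS

end Fermat.Agent.Lib.FF.CharP
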